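/-
S41 / [MID] (helper77), part 0: **the socle lemma**.  A finite module `N` over a commutative ring
with `N ≠ I N` contains a non-zero element killed by `I`.  (Mathlib only.)
-/
import Mathlib

set_option autoImplicit false

namespace Fermat.Agent.S41.Mid77

variable {𝕋 : Type*} [CommRing 𝕋] {M : Type*} [AddCommGroup M] [Module 𝕋 M]

/-- **socle lemma**, submodule form: in a finite module, a submodule `N` with `N ≠ I • N` contains a
non-zero element killed by `I`. -/
theorem exists_mem_ne_zero_forall_smul_eq_zero [Finite M] (I : Ideal 𝕋) (N : Submodule 𝕋 M)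
    (hN : ¬ N ≤ I • N) : ∃ m ∈ N, m ≠ 0 ∧ ∀ s ∈ I, s • m = 0 := by
  haveI : IsArtinian 𝕋 M := inferInstance
  induction N using WellFoundedLT.induction with
  | ind N ih =>
  by_cases h0 : ∀ s ∈ I, ∀ m ∈ N, s • m = 0
  · -- `I` kills `N`; `N ≠ 0`
    have hne : N ≠ ⊥ := by
      rintro rfl
      exact hN bot_le
    obtain ⟨m, hm, hm0⟩ := Submodule.exists_mem_ne_zero_of_ne_bot hne
    exact ⟨m, hm, hm0, fun s hs => h0 s hs m hm⟩
  · push_neg at h0
    obtain ⟨t, ht, m₁, hm₁, htm₁⟩ := h0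
    set f : M →ₗ[𝕋] M := LinearMap.lsmul 𝕋 M t with hf
    have hfN : ∀ m ∈ N, f m ∈ N := fun m hm => N.smul_mem t hm
    set N₁ : Submodule 𝕋 M := N ⊓ LinearMap.ker f with hN₁
    set N₂ : Submodule 𝕋 M := N.map f with hN₂
    have hN₁lt : N₁ < N := by
      refine lt_of_le_of_ne inf_le_left (fun h => htm₁ ?_)
      have : m₁ ∈ N₁ := h ▸ hm₁
      exact LinearMap.mem_ker.mp this.2
    have hN₂le : N₂ ≤ N := by
      rintro _ ⟨m, hm, rfl⟩
      exact hfN m hm
    have hN₂I : N₂ ≤ I • N := by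
      rintro _ ⟨m, hm, rfl⟩
      exact Submodule.smul_mem_smul ht hm
    have hN₂lt : N₂ < N := lt_of_le_of_ne hN₂le (fun h => hN (h ▸ hN₂I))
    by_cases hA : N₁ ≤ I • N₁
    · by_cases hB : N₂ ≤ I • N₂
      · -- both satisfy Nakayama: contradiction
        exfalso
        obtain ⟨r, hr, hrN₁⟩ := Submodule.exists_sub_one_mem_and_smul_eq_zero_of_fg_of_le_smul I N₁
          (IsNoetherian.noetherian N₁) hA
        obtain ⟨r', hr', hrN₂⟩ := Submodule.exists_sub_one_mem_and_smul_eq_zero_of_fg_of_le_smul I N₂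
          (IsNoetherian.noetherian N₂) hB
        apply hN
        intro m hm
        have h1 : r' • m ∈ N₁ := by
          refine ⟨N.smul_mem r' hm, ?_⟩
          show f (r' • m) = 0
          rw [hf, LinearMap.lsmul_apply, smul_comm]
          exact hrN₂ _ ⟨m, hm, rfl⟩
        have h2 : (r * r') • m = 0 := by
          rw [mul_smul]
          exact hrN₁ _ h1
        have h3 : (1 - r * r') ∈ I := by
          have : (1 - r * r') = -((r - 1) * r' + (r' - 1)) := by ring
          rw [this]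
          exact I.neg_mem (I.add_mem (I.mul_mem_right _ hr) hr')
        have h4 : m = (1 - r * r') • m := by
          rw [sub_smul, one_smul, h2, sub_zero]
        rw [h4]
        exact Submodule.smul_mem_smul h3 hm
      · obtain ⟨m, hm, hm0, hmI⟩ := ih N₂ hN₂lt hB
        exact ⟨m, hN₂le hm, hm0, hmI⟩
    · obtain ⟨m, hm, hm0, hmI⟩ := ih N₁ hN₁lt hA
      exact ⟨m, hm.1, hm0, hmI⟩

/-- **socle lemma**: a finite module `M ≠ I M` has a non-zero element killed by `I`. -/
theorem exists_ne_zero_forall_smul_eq_zero [Finite M] (I : Ideal 𝕋)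
    (hM : ¬ (⊤ : Submodule 𝕋 M) ≤ I • ⊤) : ∃ m : M, m ≠ 0 ∧ ∀ s ∈ I, s • m = 0 := by
  obtain ⟨m, -, hm0, hmI⟩ := exists_mem_ne_zero_forall_smul_eq_zero I ⊤ hM
  exact ⟨m, hm0, hmI⟩

end Fermat.Agent.S41.Mid77
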