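/-
S41 / [MID] (helper77), part 1: **the abstract middle assembly** between helper85's
`RibetAlgGlobal85.exists_mem_ker_forall_smul_ne_zero` ([RIBET-ALG]) and helper49's
`DS49.deligne_serre_lattice` ([DS]).  Pure algebra: Mathlib + `RibetAlg85` only.

`𝕋` any commutative ring acting on `L`, `L'`; `θ : 𝕋 →+* ZMod p` (`𝔪₀ := ker θ`); `α₁ α₂ : L → L'`,
`β₁ β₂ : L' → L`, `T : L → L` `𝕋`-linear with `β ∘ α = [[c, T],[T, c]]`; `L'` a finitely generated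
abelian group, `L` without `p`-torsion.  From (I) [Ihara at `𝔪₀`], (II) [dual Ihara at `𝔪₀`] and
`hsupp` [`(𝔪₀, T² - c²)` is in the support of `L`] we get a vector of the `q'`-new lattice
`K = ker β₁ ⊓ ker β₂`, not divisible by `p` in `K`, on which `𝔪₀` acts by `0` modulo `p K`.
-/
import Mathlib
import Fermat.Agent.S41.RibetAlg85.Global
import Fermat.Agent.S41.Mid77.Socle

set_option autoImplicit false

namespace Fermat.Agent.S41.Mid77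

open Fermat.Agent.S41.RibetAlg85
open scoped Pointwise

variable {𝕋 : Type*} [CommRing 𝕋] {L L' : Type*} [AddCommGroup L] [Module 𝕋 L]
  [AddCommGroup L'] [Module 𝕋 L']

/-- scalar multiplication by the image of a natural number is the `ℤ`-multiple. -/
theorem natCast_smul_eq_intCast_smul {M : Type*} [AddCommGroup M] [Module 𝕋 M] (p : ℕ) (y : M) :
    ((p : ℕ) : 𝕋) • y = ((p : ℕ) : ℤ) • y := by
  rw [Nat.cast_smul_eq_nsmul, Nat.cast_smul_eq_nsmul]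

/-- a `𝕋`-submodule of a module which is finitely generated over `ℤ` is finitely generated. -/
theorem fg_of_finite_int [Module.Finite ℤ L'] (K : Submodule 𝕋 L') : K.FG := by
  haveI : IsNoetherian ℤ L' := isNoetherian_of_isNoetherianRing_of_finite ℤ L'
  obtain ⟨S, hS⟩ := IsNoetherian.noetherian (K.toAddSubgroup.toIntSubmodule)
  refine ⟨S, le_antisymm (Submodule.span_le.mpr ?_) ?_⟩
  · intro x hx
    have : x ∈ Submodule.span ℤ (S : Set L') := Submodule.subset_span hx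
    rw [hS] at this
    exact this
  · intro x hx
    have hx' : x ∈ K.toAddSubgroup.toIntSubmodule := hx
    rw [← hS] at hx'
    exact Submodule.span_subset_span ℤ 𝕋 _ hx'

/-- the quotient of a finitely generated abelian group by `p` is finite. -/
theorem finite_quot_smul_top [Module.Finite ℤ L'] (p : ℕ) (hp : p ≠ 0) :
    Finite (L' ⧸ (((p : ℕ) : 𝕋) • (⊤ : Submodule 𝕋 L'))) := by
  set Q := L' ⧸ (((p : ℕ) : 𝕋) • (⊤ : Submodule 𝕋 L')) with hQ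
  have hsurj : Function.Surjective
      ((((p : ℕ) : 𝕋) • (⊤ : Submodule 𝕋 L')).mkQ.toAddMonoidHom.toIntLinearMap) :=
    Submodule.mkQ_surjective _
  haveI : Module.Finite ℤ Q := Module.Finite.of_surjective _ hsurj
  apply Module.finite_of_fg_torsion
  intro x
  refine ⟨⟨(p : ℤ), ?_⟩, ?_⟩
  · rw [mem_nonZeroDivisors_iff_ne_zero]
    exact_mod_cast hp
  · obtain ⟨y, rfl⟩ := Submodule.mkQ_surjective _ x
    show ((p : ℕ) : ℤ) • ((((p : ℕ) : 𝕋) • (⊤ : Submodule 𝕋 L')).mkQ y) = 0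
    rw [← natCast_smul_eq_intCast_smul (𝕋 := 𝕋), ← map_smul, Submodule.mkQ_apply,
      Submodule.Quotient.mk_eq_zero]
    exact Submodule.smul_mem_pointwise_smul _ _ _ Submodule.mem_top

variable {p : ℕ} [hp : Fact p.Prime] (θ : 𝕋 →+* ZMod p)

/-- **[MID]**: from [RIBET-ALG] to the input of [DS]. -/
theorem exists_new_vector (c : 𝕋) (T : L →ₗ[𝕋] L) (α₁ α₂ : L →ₗ[𝕋] L') (β₁ β₂ : L' →ₗ[𝕋] L)
    (h11 : ∀ x, β₁ (α₁ x) = c • x) (h12 : ∀ y, β₁ (α₂ y) = T y)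
    (h21 : ∀ x, β₂ (α₁ x) = T x) (h22 : ∀ y, β₂ (α₂ y) = c • y)
    [Module.Finite ℤ L'] (htf : ∀ x : L, ((p : ℕ) : 𝕋) • x = 0 → x = 0)
    (hI : ∀ x y : L, PDvd ((p : ℕ) : 𝕋) (α₁ x + α₂ y) →
      ∃ s, θ s ≠ 0 ∧ PDvd ((p : ℕ) : 𝕋) (s • x) ∧ PDvd ((p : ℕ) : 𝕋) (s • y))
    (hII : ∀ x y : L, ∃ s, θ s ≠ 0 ∧ ∃ z : L', β₁ z = s • x ∧ β₂ z = s • y)
    (hsupp : ∃ x₀ : L, ∀ s : 𝕋, θ s ≠ 0 →
      ¬ ∃ w ∈ (RingHom.ker θ) • (⊤ : Submodule 𝕋 L), ∃ y : L,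
        s • x₀ = w + (T (T y) - (c * c) • y)) :
    ∃ x : L', β₁ x = 0 ∧ β₂ x = 0 ∧
      (¬ ∃ y : L', β₁ y = 0 ∧ β₂ y = 0 ∧ x = ((p : ℕ) : ℤ) • y) ∧
      ∀ s : 𝕋, θ s = 0 → ∃ y : L', β₁ y = 0 ∧ β₂ y = 0 ∧ s • x = ((p : ℕ) : ℤ) • y := by
  classical
  set 𝔪 : Ideal 𝕋 := RingHom.ker θ with h𝔪
  haveI : 𝔪.IsPrime := RingHom.ker_isPrime θ
  have hmem : ∀ s : 𝕋, s ∉ 𝔪 ↔ θ s ≠ 0 := fun s => by rw [h𝔪, RingHom.mem_ker]
  have hp𝔪 : ((p : ℕ) : 𝕋) ∈ 𝔪 := by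
    rw [h𝔪, RingHom.mem_ker, map_natCast, ZMod.natCast_self]
  -- (III)
  have hIII : ¬ ∀ x : L, ∃ s ∉ 𝔪, ∃ y : L,
      PDvd ((p : ℕ) : 𝕋) (s • x - (T (T y) - (c * c) • y)) := by
    intro h
    obtain ⟨x₀, hx₀⟩ := hsupp
    obtain ⟨s, hs, y, w, hw⟩ := h x₀
    refine hx₀ s ((hmem s).mp hs) ⟨((p : ℕ) : 𝕋) • w, Submodule.smul_mem_smul hp𝔪 Submodule.mem_top,
      y, ?_⟩
    rw [← hw]
    abel
  -- [RIBET-ALG]
  obtain ⟨z, hz1, hz2, hz⟩ :=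
    Fermat.Agent.S41.RibetAlgGlobal85.exists_mem_ker_forall_smul_ne_zero 𝔪 ((p : ℕ) : 𝕋) c T α₁ α₂
      β₁ β₂ h11 h12 h21 h22 (finite_quot_smul_top p hp.out.ne_zero)
      (fun x y h => by
        obtain ⟨s, hs, h1, h2⟩ := hI x y h
        exact ⟨s, (hmem s).mpr hs, h1, h2⟩)
      (fun x y => by
        obtain ⟨s, hs, z, h1, h2⟩ := hII x y
        exact ⟨s, (hmem s).mpr hs, z, h1, h2⟩)
      hIII
  -- the `q'`-new lattice
  set K : Submodule 𝕋 L' := LinearMap.ker β₁ ⊓ LinearMap.ker β₂ with hK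
  have hzK : z ∈ K := ⟨LinearMap.mem_ker.mpr hz1, LinearMap.mem_ker.mpr hz2⟩
  -- saturation of `K`
  have hsat : ∀ y : L', ((p : ℕ) : 𝕋) • y ∈ K → y ∈ K := by
    intro y hy
    refine ⟨LinearMap.mem_ker.mpr (htf _ ?_), LinearMap.mem_ker.mpr (htf _ ?_)⟩
    · rw [← map_smul]; exact LinearMap.mem_ker.mp hy.1
    · rw [← map_smul]; exact LinearMap.mem_ker.mp hy.2
  -- Nakayama: `K ≠ 𝔪 K`
  have hKne : ¬ K ≤ 𝔪 • K := by
    intro hle
    obtain ⟨r, hr, hrK⟩ :=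
      Submodule.exists_sub_one_mem_and_smul_eq_zero_of_fg_of_le_smul 𝔪 K (fg_of_finite_int K) hle
    have hr𝔪 : r ∉ 𝔪 := by
      intro h
      have h1 : (1 : 𝕋) ∈ 𝔪 := by
        have : (1 : 𝕋) = r - (r - 1) := by ring
        rw [this]
        exact 𝔪.sub_mem h hr
      exact (Ideal.IsPrime.ne_top inferInstance) ((Ideal.eq_top_iff_one 𝔪).mpr h1)
    exact hz r hr𝔪 (hrK z hzK)
  -- the socle lemma in the finite module `L' / p L'`
  haveI : Finite (L' ⧸ (((p : ℕ) : 𝕋) • (⊤ : Submodule 𝕋 L'))) :=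
    finite_quot_smul_top p hp.out.ne_zero
  set P : Submodule 𝕋 L' := ((p : ℕ) : 𝕋) • (⊤ : Submodule 𝕋 L') with hP
  have hPmem : ∀ y : L', y ∈ P ↔ ∃ w : L', y = ((p : ℕ) : 𝕋) • w := fun y => by
    rw [hP, ← pDvd_iff_mem]; rfl
  set N : Submodule 𝕋 (L' ⧸ P) := K.map P.mkQ with hN
  have hNne : ¬ N ≤ 𝔪 • N := by
    intro hle
    apply hKne
    intro k hk
    have h1 : P.mkQ k ∈ 𝔪 • N := hle ⟨k, hk, rfl⟩
    rw [hN, ← Submodule.map_smul''] at h1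
    obtain ⟨m, hm, hmk⟩ := h1
    have h2 : k - m ∈ P := by
      rw [← Submodule.Quotient.mk_eq_zero, Submodule.Quotient.mk_sub]
      have : (Submodule.Quotient.mk m : L' ⧸ P) = Submodule.Quotient.mk k := hmk
      rw [this, sub_self]
    obtain ⟨w, hw⟩ := (hPmem _).mp h2
    have hmK : m ∈ K := Submodule.smul_le_right hm
    have hwK : w ∈ K := hsat w (hw ▸ K.sub_mem hk hmK)
    have : k = m + ((p : ℕ) : 𝕋) • w := by rw [← hw]; abel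
    rw [this]
    exact (𝔪 • K).add_mem hm (Submodule.smul_mem_smul hp𝔪 hwK)
  obtain ⟨n, hnN, hn0, hn𝔪⟩ := exists_mem_ne_zero_forall_smul_eq_zero 𝔪 N hNne
  obtain ⟨x, hxK, rfl⟩ := hnN
  refine ⟨x, LinearMap.mem_ker.mp hxK.1, LinearMap.mem_ker.mp hxK.2, ?_, ?_⟩
  · rintro ⟨y, -, -, hxy⟩
    apply hn0
    show (Submodule.Quotient.mk x : L' ⧸ P) = 0
    rw [Submodule.Quotient.mk_eq_zero, hPmem]
    exact ⟨y, hxy.trans (natCast_smul_eq_intCast_smul p y).symm⟩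
  · intro s hs
    have hs𝔪 : s ∈ 𝔪 := by rw [h𝔪, RingHom.mem_ker]; exact hs
    have h1 : s • (P.mkQ x) = 0 := hn𝔪 s hs𝔪
    rw [← map_smul, Submodule.mkQ_apply, Submodule.Quotient.mk_eq_zero, hPmem] at h1
    obtain ⟨w, hw⟩ := h1
    have hwK : w ∈ K := hsat w (hw ▸ K.smul_mem s hxK)
    exact ⟨w, LinearMap.mem_ker.mp hwK.1, LinearMap.mem_ker.mp hwK.2,
      hw.trans (natCast_smul_eq_intCast_smul p w)⟩

end Fermat.Agent.S41.Mid77
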