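/-
S41 / [MID] (helper77), part 2: **the eigen-ideal of a characteristic-0 eigenvector lies in the
support of the lattice** ([EIGEN-RED]).  Pure algebra: Mathlib only (+ the socle lemma).

`R` any commutative ring acting on an abelian group `L` which is finitely generated over `ℤ`;
`j : L →+ V` an additive map into a `ℂ`-vector space; `v ≠ 0` in the `ℂ`-span of `j L`;
`χ : R →+* ℂ` a ring homomorphism such that every `r : R` comes with a `ℂ`-linear operator `f` on `V`
with `j (r • x) = f (j x)` and `f v = χ r • v` (`v` is an eigenvector with eigencharacter `χ`).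
Then

* `χ` takes values in the algebraic integers (`chiInt : R →+* integralClosure ℤ ℂ`);
* for every proper ideal `𝔪` of the algebraic integers, with `𝔫 := χ⁻¹ 𝔪`, one has `𝔫 L ≠ L`
  (Nakayama; `smul_top_ne_top`);
* hence (socle lemma in `L / p L`) there is `v₁ ∈ L ∖ p L` with `𝔫 v₁ ⊆ p L`
  (`exists_mod_p_eigenvector`).
-/
import Mathlib
import Fermat.Agent.S41.Mid77.Socle

set_option autoImplicit false

namespace Fermat.Agent.S41.Mid77

open scoped Pointwise

section Eigen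

variable {R : Type*} [CommRing R] {L : Type*} [AddCommGroup L] [Module R L]
  {V : Type*} [AddCommGroup V] [Module ℂ V]
  (j : L →+ V) (v : V) (hv0 : v ≠ 0) (hvspan : v ∈ Submodule.span ℂ (Set.range j))
  (χ : R →+* ℂ)
  (hχ : ∀ r : R, ∃ f : Module.End ℂ V, (∀ x, j (r • x) = f (j x)) ∧ f v = χ r • v)

include hv0 hvspan hχ in
/-- an element of `R` killing the lattice has eigenvalue `0`. -/
theorem chi_eq_zero_of_forall_smul_eq_zero (r : R) (hr : ∀ x : L, r • x = 0) : χ r = 0 := by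
  obtain ⟨f, hf, hfv⟩ := hχ r
  have hkill : ∀ u ∈ Submodule.span ℂ (Set.range j), f u = 0 := by
    intro u hu
    induction hu using Submodule.span_induction with
    | mem u hu =>
      obtain ⟨x, rfl⟩ := hu
      rw [← hf, hr, map_zero]
    | zero => exact map_zero _
    | add a b _ _ ha hb => rw [map_add, ha, hb, add_zero]
    | smul c a _ ha => rw [map_smul, ha, smul_zero]
  have h1 : χ r • v = 0 := by rw [← hfv, hkill v hvspan]
  rcases smul_eq_zero.mp h1 with h | h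
  · exact h
  · exact absurd h hv0

include hv0 hvspan hχ in
/-- the eigenvalues are algebraic integers. -/
theorem isIntegral_chi [Module.Finite ℤ L] (r : R) : IsIntegral ℤ (χ r) := by
  obtain ⟨P, hmonic, hP⟩ :=
    LinearMap.exists_monic_and_aeval_eq_zero ℤ (Algebra.lsmul ℤ ℤ L r)
  refine ⟨P, hmonic, ?_⟩
  rw [← Polynomial.aeval_def]
  have h1 : ∀ x : L, (Polynomial.aeval r P) • x = 0 := by
    intro x
    have h2 : Algebra.lsmul ℤ ℤ L (Polynomial.aeval r P) = 0 := by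
      rw [← Polynomial.aeval_algHom_apply, hP]
    have h3 := congrArg (fun f : Module.End ℤ L => f x) h2
    simpa using h3
  have h4 := chi_eq_zero_of_forall_smul_eq_zero j v hv0 hvspan χ hχ _ h1
  have h5 : χ (Polynomial.aeval r P) = Polynomial.aeval (χ r) P :=
    (Polynomial.aeval_algHom_apply χ.toIntAlgHom r P).symm
  rw [← h5, h4]

/-- the eigencharacter, with values in the ring of algebraic integers. -/
noncomputable def chiInt [Module.Finite ℤ L] : R →+* integralClosure ℤ ℂ :=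
  RingHom.codRestrict χ (integralClosure ℤ ℂ)
    (fun r => isIntegral_chi j v hv0 hvspan χ hχ r)

@[simp] theorem chiInt_coe [Module.Finite ℤ L] (r : R) :
    ((chiInt j v hv0 hvspan χ hχ r : integralClosure ℤ ℂ) : ℂ) = χ r := rfl

/-- membership in the eigen-ideal, in down-to-earth terms. -/
theorem chiInt_mem_iff [Module.Finite ℤ L] (𝔪 : Ideal (integralClosure ℤ ℂ)) (r : R) :
    chiInt j v hv0 hvspan χ hχ r ∈ 𝔪 ↔ ∃ b : integralClosure ℤ ℂ, b ∈ 𝔪 ∧ (b : ℂ) = χ r := by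
  constructor
  · intro h
    exact ⟨_, h, rfl⟩
  · rintro ⟨b, hb, hbr⟩
    have : chiInt j v hv0 hvspan χ hχ r = b := Subtype.ext hbr.symm
    rw [this]
    exact hb

/-- **[EIGEN-RED], Nakayama form**: the eigen-ideal `𝔫 = χ⁻¹ 𝔪` is in the support of `L`:
`I L ≠ L` for every ideal `I ≤ 𝔫`. -/
theorem smul_top_ne_top [Module.Finite ℤ L] (𝔪 : Ideal (integralClosure ℤ ℂ)) (h𝔪 : 𝔪 ≠ ⊤)
    (I : Ideal R) (hI : I ≤ Ideal.comap (chiInt j v hv0 hvspan χ hχ) 𝔪) :
    ¬ (⊤ : Submodule R L) ≤ I • ⊤ := by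
  intro hle
  haveI : Module.Finite R L := Module.Finite.of_restrictScalars_finite ℤ R L
  obtain ⟨r, hr, hrL⟩ :=
    Submodule.exists_sub_one_mem_and_smul_eq_zero_of_fg_of_le_smul I (⊤ : Submodule R L)
      Module.Finite.fg_top hle
  have h0 : χ r = 0 :=
    chi_eq_zero_of_forall_smul_eq_zero j v hv0 hvspan χ hχ r
      (fun x => hrL x Submodule.mem_top)
  have h1 : chiInt j v hv0 hvspan χ hχ (r - 1) ∈ 𝔪 := hI hr
  have h2 : chiInt j v hv0 hvspan χ hχ (r - 1) = -1 := by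
    apply Subtype.ext
    show χ (r - 1) = ((-1 : integralClosure ℤ ℂ) : ℂ)
    rw [map_sub, h0, map_one, zero_sub]
    simp
  rw [h2] at h1
  apply h𝔪
  rw [Ideal.eq_top_iff_one]
  have := 𝔪.neg_mem h1
  simpa using this

/-- the quotient of a finitely generated abelian group by `p` is finite. -/
theorem finite_quot_natCast_smul_top [Module.Finite ℤ L] (p : ℕ) (hp : p ≠ 0) :
    Finite (L ⧸ (((p : ℕ) : R) • (⊤ : Submodule R L))) := by
  set Q := L ⧸ (((p : ℕ) : R) • (⊤ : Submodule R L)) with hQ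
  have hsurj : Function.Surjective
      ((((p : ℕ) : R) • (⊤ : Submodule R L)).mkQ.toAddMonoidHom.toIntLinearMap) :=
    Submodule.mkQ_surjective _
  haveI : Module.Finite ℤ Q := Module.Finite.of_surjective _ hsurj
  apply Module.finite_of_fg_torsion
  intro x
  refine ⟨⟨(p : ℤ), ?_⟩, ?_⟩
  · rw [mem_nonZeroDivisors_iff_ne_zero]
    exact_mod_cast hp
  · obtain ⟨y, rfl⟩ := Submodule.mkQ_surjective _ x
    show ((p : ℕ) : ℤ) • ((((p : ℕ) : R) • (⊤ : Submodule R L)).mkQ y) = 0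
    have hcast : ((p : ℕ) : ℤ) • ((((p : ℕ) : R) • (⊤ : Submodule R L)).mkQ y)
        = ((p : ℕ) : R) • ((((p : ℕ) : R) • (⊤ : Submodule R L)).mkQ y) := by
      rw [Nat.cast_smul_eq_nsmul, Nat.cast_smul_eq_nsmul]
    rw [hcast, ← map_smul, Submodule.mkQ_apply, Submodule.Quotient.mk_eq_zero]
    exact Submodule.smul_mem_pointwise_smul _ _ _ Submodule.mem_top

include j v hv0 hvspan hχ in
/-- **[EIGEN-RED], mod-`p` eigenvector form**: if `p ∈ 𝔪`, there is `v₁ ∈ L ∖ p L` such that every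
`r` of the eigen-ideal (`χ r ∈ 𝔪`) maps `v₁` into `p L`. -/
theorem exists_mod_p_eigenvector [Module.Finite ℤ L] (𝔪 : Ideal (integralClosure ℤ ℂ))
    (h𝔪 : 𝔪 ≠ ⊤) (p : ℕ) (hp0 : p ≠ 0) (hp𝔪 : ((p : ℕ) : integralClosure ℤ ℂ) ∈ 𝔪) :
    ∃ v₁ : L, (¬ ∃ w : L, v₁ = ((p : ℕ) : ℤ) • w) ∧
      ∀ r : R, (∃ b : integralClosure ℤ ℂ, b ∈ 𝔪 ∧ (b : ℂ) = χ r) →
        ∃ w : L, r • v₁ = ((p : ℕ) : ℤ) • w := by
  classical
  set 𝔫 : Ideal R := Ideal.comap (chiInt j v hv0 hvspan χ hχ) 𝔪 with h𝔫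
  have hp𝔫 : ((p : ℕ) : R) ∈ 𝔫 := by
    rw [h𝔫, Ideal.mem_comap, map_natCast]
    exact hp𝔪
  set P : Submodule R L := ((p : ℕ) : R) • (⊤ : Submodule R L) with hP
  have hPmem : ∀ y : L, y ∈ P ↔ ∃ w : L, y = ((p : ℕ) : ℤ) • w := fun y => by
    rw [hP, Submodule.mem_smul_pointwise_iff_exists]
    constructor
    · rintro ⟨w, -, rfl⟩
      exact ⟨w, by rw [Nat.cast_smul_eq_nsmul, Nat.cast_smul_eq_nsmul]⟩
    · rintro ⟨w, rfl⟩
      exact ⟨w, Submodule.mem_top, by rw [Nat.cast_smul_eq_nsmul, Nat.cast_smul_eq_nsmul]⟩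
  haveI : Finite (L ⧸ P) := finite_quot_natCast_smul_top p hp0
  have hne : ¬ (⊤ : Submodule R (L ⧸ P)) ≤ 𝔫 • ⊤ := by
    intro hle
    apply smul_top_ne_top j v hv0 hvspan χ hχ 𝔪 h𝔪 𝔫 le_rfl
    intro x _
    have h1 : P.mkQ x ∈ 𝔫 • (⊤ : Submodule R (L ⧸ P)) := hle Submodule.mem_top
    have htop : (⊤ : Submodule R (L ⧸ P)) = (⊤ : Submodule R L).map P.mkQ := by
      rw [Submodule.map_top, LinearMap.range_eq_top.mpr (Submodule.mkQ_surjective P)]
    rw [htop, ← Submodule.map_smul''] at h1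
    obtain ⟨m, hm, hmk⟩ := h1
    have h2 : x - m ∈ P := by
      rw [← Submodule.Quotient.mk_eq_zero, Submodule.Quotient.mk_sub]
      have : (Submodule.Quotient.mk m : L ⧸ P) = Submodule.Quotient.mk x := hmk
      rw [this, sub_self]
    have h3 : x - m ∈ 𝔫 • (⊤ : Submodule R L) := by
      rw [hP, Submodule.mem_smul_pointwise_iff_exists] at h2
      obtain ⟨w, -, hw⟩ := h2
      rw [← hw]
      exact Submodule.smul_mem_smul hp𝔫 Submodule.mem_top
    have : x = m + (x - m) := by abel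
    rw [this]
    exact (𝔫 • (⊤ : Submodule R L)).add_mem hm h3
  obtain ⟨n, hn0, hn𝔫⟩ := exists_ne_zero_forall_smul_eq_zero 𝔫 hne
  obtain ⟨x, rfl⟩ := Submodule.mkQ_surjective P n
  refine ⟨x, ?_, ?_⟩
  · intro hx
    apply hn0
    show (Submodule.Quotient.mk x : L ⧸ P) = 0
    rw [Submodule.Quotient.mk_eq_zero, hPmem]
    exact hx
  · intro r hr
    have hr𝔫 : r ∈ 𝔫 := by
      rw [h𝔫, Ideal.mem_comap, chiInt_mem_iff]
      exact hr
    have h1 : r • (P.mkQ x) = 0 := hn𝔫 r hr𝔫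
    rw [← map_smul, Submodule.mkQ_apply, Submodule.Quotient.mk_eq_zero, hPmem] at h1
    exact h1

end Eigen

end Fermat.Agent.S41.Mid77
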