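/-
S41 / [MID] (helper77), part 3: **`hsupp` of `Mid77.exists_new_vector` from a characteristic-0
eigenvector** (the level-raising congruence enters here).  Pure algebra.

`𝕋` acts on the lattice `L` (finitely generated over `ℤ`), `T : L →ₗ[𝕋] L` (`= T_{q'}`),
`θ : 𝕋 →+* ZMod p`, `c : 𝕋` (`= q' + 1`).  `j : L →+ V` into a `ℂ`-vector space, `v ≠ 0` in the
`ℂ`-span of `j L`, eigenvector of (the operators induced by) `𝕋` with eigencharacter `χ` and of `T`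
with eigenvalue `lamq`.  If `χ (ker θ) ⊆ 𝔪` and `lamq² - χ(c)² ∈ 𝔪` for a proper ideal `𝔪` of the
algebraic integers, then `(ker θ, T² - c²)` is in the support of `L`, in the literal form `hsupp`
consumed by `Mid77.exists_new_vector`.
-/
import Mathlib
import Fermat.Agent.S41.Mid77.Core
import Fermat.Agent.S41.Mid77.Eigen

set_option autoImplicit false

namespace Fermat.Agent.S41.Mid77

open Polynomial

variable {𝕋 : Type*} [CommRing 𝕋] {L : Type*} [AddCommGroup L] [Module 𝕋 L]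
  {V : Type*} [AddCommGroup V] [Module ℂ V] {p : ℕ} [hp : Fact p.Prime]

/-- **`hsupp` from an eigenvector**. -/
theorem hsupp_of_eigenvector [Module.Finite ℤ L] (θ : 𝕋 →+* ZMod p) (c : 𝕋) (T : L →ₗ[𝕋] L)
    (j : L →+ V) (v : V) (hv0 : v ≠ 0) (hvspan : v ∈ Submodule.span ℂ (Set.range j))
    (χ : 𝕋 →+* ℂ)
    (hχ : ∀ s : 𝕋, ∃ f : Module.End ℂ V, (∀ x, j (s • x) = f (j x)) ∧ f v = χ s • v)
    (lamq : ℂ) (hT : ∃ f : Module.End ℂ V, (∀ x, j (T x) = f (j x)) ∧ f v = lamq • v)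
    (𝔪 : Ideal (integralClosure ℤ ℂ)) (h𝔪 : 𝔪 ≠ ⊤)
    (hker : ∀ s : 𝕋, θ s = 0 → ∃ b : integralClosure ℤ ℂ, b ∈ 𝔪 ∧ (b : ℂ) = χ s)
    (hq : ∃ b : integralClosure ℤ ℂ, b ∈ 𝔪 ∧ (b : ℂ) = lamq ^ 2 - χ c ^ 2) :
    ∃ x₀ : L, ∀ s : 𝕋, θ s ≠ 0 →
      ¬ ∃ w ∈ (RingHom.ker θ) • (⊤ : Submodule 𝕋 L), ∃ y : L,
        s • x₀ = w + (T (T y) - (c * c) • y) := by
  classical
  by_contra hcon
  push_neg at hcon
  obtain ⟨fT, hfT, hfTv⟩ := hT
  -- the `𝕋[X]`-module structure, `X` acting by `T`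
  letI instPoly : Module 𝕋[X] L :=
    Module.compHom L ((Polynomial.aeval T : 𝕋[X] →ₐ[𝕋] Module.End 𝕋 L) : 𝕋[X] →+* Module.End 𝕋 L)
  have hsmul : ∀ (r : 𝕋[X]) (x : L), r • x = (Polynomial.aeval T r) x := fun _ _ => rfl
  have hC : ∀ (s : 𝕋) (x : L), (C s : 𝕋[X]) • x = s • x := by
    intro s x
    rw [hsmul, aeval_C, Module.algebraMap_end_apply]
  have hX : ∀ x : L, (X : 𝕋[X]) • x = T x := by
    intro x
    rw [hsmul, aeval_X]
  have hQ : ∀ y : L, (X ^ 2 - C (c * c) : 𝕋[X]) • y = T (T y) - (c * c) • y := by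
    intro y
    rw [sub_smul, hC, pow_two, mul_smul, hX, hX]
  -- the eigencharacter of `𝕋[X]`
  set χp : 𝕋[X] →+* ℂ := Polynomial.eval₂RingHom χ lamq with hχp_def
  have hχpC : ∀ s : 𝕋, χp (C s) = χ s := fun s => by
    rw [hχp_def, Polynomial.coe_eval₂RingHom, eval₂_C]
  have hχpX : χp X = lamq := by
    rw [hχp_def, Polynomial.coe_eval₂RingHom, eval₂_X]
  have hχp : ∀ r : 𝕋[X], ∃ f : Module.End ℂ V, (∀ x, j (r • x) = f (j x)) ∧ f v = χp r • v := by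
    intro r
    induction r using Polynomial.induction_on with
    | C s =>
      obtain ⟨f, hf, hfv⟩ := hχ s
      refine ⟨f, fun x => ?_, ?_⟩
      · rw [hC, hf]
      · rw [hfv, hχpC]
    | add a b ha hb =>
      obtain ⟨f, hf, hfv⟩ := ha
      obtain ⟨g, hg, hgv⟩ := hb
      refine ⟨f + g, fun x => ?_, ?_⟩
      · rw [add_smul, map_add, hf, hg, LinearMap.add_apply]
      · rw [LinearMap.add_apply, hfv, hgv, map_add, add_smul]
    | monomial n s ih =>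
      obtain ⟨f, hf, hfv⟩ := ih
      refine ⟨f * fT, fun x => ?_, ?_⟩
      · rw [pow_succ, ← mul_assoc, mul_smul, hX, hf, hfT, Module.End.mul_apply]
      · rw [Module.End.mul_apply, hfTv, map_smul, hfv, pow_succ, ← mul_assoc,
          map_mul χp (C s * X ^ n) X, hχpX, smul_smul, mul_comm]
  -- the ideal
  set I : Ideal 𝕋[X] :=
    Ideal.span ((fun s : 𝕋 => (C s : 𝕋[X])) '' (RingHom.ker θ : Set 𝕋) ∪ {X ^ 2 - C (c * c)})
    with hI_def
  have hCI : ∀ s : 𝕋, θ s = 0 → (C s : 𝕋[X]) ∈ I := fun s hs =>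
    Ideal.subset_span (Or.inl ⟨s, (RingHom.mem_ker).mpr hs, rfl⟩)
  have hQI : (X ^ 2 - C (c * c) : 𝕋[X]) ∈ I := Ideal.subset_span (Or.inr rfl)
  have hI : I ≤ Ideal.comap (chiInt j v hv0 hvspan χp hχp) 𝔪 := by
    rw [hI_def, Ideal.span_le]
    rintro g (⟨s, hs, rfl⟩ | hg)
    · show chiInt j v hv0 hvspan χp hχp (C s) ∈ 𝔪
      rw [chiInt_mem_iff]
      obtain ⟨b, hb, hbs⟩ := hker s ((RingHom.mem_ker).mp hs)
      exact ⟨b, hb, by rw [hbs, hχpC]⟩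
    · rw [Set.mem_singleton_iff] at hg
      subst hg
      show chiInt j v hv0 hvspan χp hχp (X ^ 2 - C (c * c)) ∈ 𝔪
      rw [chiInt_mem_iff]
      obtain ⟨b, hb, hbq⟩ := hq
      refine ⟨b, hb, ?_⟩
      rw [hbq, map_sub, map_pow, hχpX, hχpC, map_mul, pow_two (χ c)]
  apply smul_top_ne_top j v hv0 hvspan χp hχp 𝔪 h𝔪 I hI
  -- `L = I L`
  have hkerle : ∀ w ∈ (RingHom.ker θ) • (⊤ : Submodule 𝕋 L), w ∈ I • (⊤ : Submodule 𝕋[X] L) := by
    intro w hw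
    refine Submodule.smul_induction_on hw (fun r hr n _ => ?_) (fun a b ha hb => ?_)
    · rw [← hC]
      exact Submodule.smul_mem_smul (hCI r ((RingHom.mem_ker).mp hr)) Submodule.mem_top
    · exact Submodule.add_mem _ ha hb
  intro x₀ _
  obtain ⟨s, hs, w, hw, y, hy⟩ := hcon x₀
  -- an inverse of `s` modulo `ker θ`
  set s' : 𝕋 := (((θ s)⁻¹).val : 𝕋) with hs'
  have hθs' : θ s' = (θ s)⁻¹ := by
    rw [hs', map_natCast, ZMod.natCast_zmod_val]
  have h1 : θ (1 - s' * s) = 0 := by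
    rw [map_sub, map_one, map_mul, hθs', inv_mul_cancel₀ hs, sub_self]
  have hx₀ : x₀ = (C (1 - s' * s) : 𝕋[X]) • x₀ + ((C s' : 𝕋[X]) • w
      + (C s' : 𝕋[X]) • ((X ^ 2 - C (c * c) : 𝕋[X]) • y)) := by
    rw [hC, hC, hC, hQ, ← smul_add, ← hy, sub_smul, one_smul, mul_smul]
    abel
  rw [hx₀]
  refine Submodule.add_mem _ (Submodule.smul_mem_smul (hCI _ h1) Submodule.mem_top)
    (Submodule.add_mem _ (Submodule.smul_mem _ _ (hkerle w hw))
      (Submodule.smul_mem _ _ (Submodule.smul_mem_smul hQI Submodule.mem_top)))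

end Fermat.Agent.S41.Mid77
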