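/-
S41 / [MID] (helper77), part 4: **`hsupp` in the literal shape of
`Contract33.exists_new_congruent_vector`** (`𝕋 = MvPolynomial ι ℤ` acting through `TMod49.opModule`,
`θ = TMod49.theta p c`), from ELEMENTARY eigenvector data: a commuting family `T i` on the lattice
`L` and an extra operator `Tq`, `ℂ`-linear operators `TV i`, `TVq` on a `ℂ`-vector space `V`
compatible with them through `j : L →+ V`, a simultaneous eigenvector `v ≠ 0` in the `ℂ`-span of
`j L` with eigenvalues `lam i`, `lamq`, and the congruences `lam i ≡ c i`, `lamq² ≡ cq²` modulo a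
proper ideal `𝔪 ∋ p` of the ring of algebraic integers.
-/
import Mathlib
import Fermat.Agent.S41.Mid77.Hsupp
import Fermat.Agent.S41.TMod49.Basic
import Fermat.Agent.S41.TMod49.Ker

set_option autoImplicit false

namespace Fermat.Agent.S41.Mid77

open MvPolynomial Fermat.Agent.S41.TMod49

variable {ι : Type*} {L : Type*} [AddCommGroup L] {V : Type*} [AddCommGroup V] [Module ℂ V]

/-- **`hsupp` for `Contract33.exists_new_congruent_vector`, from an eigenvector.** -/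
theorem hsupp_of_family_eigenvector [Module.Finite ℤ L] (p : ℕ) [hp : Fact p.Prime]
    (T : ι → Module.End ℤ L) (hT : ∀ i j, Commute (T i) (T j))
    (Tq : Module.End ℤ L) (hTq : ∀ i x, Tq (T i x) = T i (Tq x)) (cq : ℤ) (c : ι → ℤ)
    (j : L →+ V) (TV : ι → Module.End ℂ V) (TVq : Module.End ℂ V)
    (hj : ∀ i x, j (T i x) = TV i (j x)) (hjq : ∀ x, j (Tq x) = TVq (j x))
    (v : V) (hv0 : v ≠ 0) (hvspan : v ∈ Submodule.span ℂ (Set.range j))
    (lam : ι → ℂ) (lamq : ℂ) (hv : ∀ i, TV i v = lam i • v) (hvq : TVq v = lamq • v)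
    (𝔪 : Ideal (integralClosure ℤ ℂ)) (h𝔪 : 𝔪 ≠ ⊤)
    (hp𝔪 : ((p : ℕ) : integralClosure ℤ ℂ) ∈ 𝔪)
    (hc : ∀ i, ∃ a : integralClosure ℤ ℂ, (a : ℂ) = lam i ∧
      a - ((c i : ℤ) : integralClosure ℤ ℂ) ∈ 𝔪)
    (hq : ∃ a : integralClosure ℤ ℂ, (a : ℂ) = lamq ∧
      a ^ 2 - ((cq : ℤ) : integralClosure ℤ ℂ) ^ 2 ∈ 𝔪) :
    letI := opModule T hT
    ∃ x₀ : L, ∀ s : MvPolynomial ι ℤ, theta p c s ≠ 0 →
      ¬ ∃ w ∈ (RingHom.ker (theta p c)) • (⊤ : Submodule (MvPolynomial ι ℤ) L), ∃ y : L,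
        s • x₀ = w + (Tq (Tq y) - ((C cq : MvPolynomial ι ℤ) * C cq) • y) := by
  classical
  letI instL : Module (MvPolynomial ι ℤ) L := opModule T hT
  let tq : L →ₗ[MvPolynomial ι ℤ] L :=
    linOfIntertwine T hT T hT Tq.toAddMonoidHom (fun i x => hTq i x)
  have htq : ∀ x, tq x = Tq x := fun _ => rfl
  -- the eigencharacter
  set χ : MvPolynomial ι ℤ →+* ℂ := MvPolynomial.eval₂Hom (Int.castRingHom ℂ) lam with hχ_def
  have hχC : ∀ n : ℤ, χ (C n) = (n : ℂ) := fun n => by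
    rw [hχ_def, MvPolynomial.eval₂Hom_C]; rfl
  have hχX : ∀ i, χ (X i) = lam i := fun i => by
    rw [hχ_def, MvPolynomial.eval₂Hom_X']
  have hχ : ∀ s : MvPolynomial ι ℤ, ∃ f : Module.End ℂ V,
      (∀ x, j (s • x) = f (j x)) ∧ f v = χ s • v := by
    intro s
    induction s using MvPolynomial.induction_on with
    | C n =>
      refine ⟨(n : ℂ) • LinearMap.id, fun x => ?_, ?_⟩
      · rw [C_smul T hT n x, map_zsmul, LinearMap.smul_apply, LinearMap.id_apply,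
          Int.cast_smul_eq_zsmul]
      · rw [LinearMap.smul_apply, LinearMap.id_apply, hχC]
    | add a b ha hb =>
      obtain ⟨f, hf, hfv⟩ := ha
      obtain ⟨g, hg, hgv⟩ := hb
      refine ⟨f + g, fun x => ?_, ?_⟩
      · rw [add_smul, map_add, hf, hg, LinearMap.add_apply]
      · rw [LinearMap.add_apply, hfv, hgv, map_add, add_smul]
    | mul_X a i ha =>
      obtain ⟨f, hf, hfv⟩ := ha
      refine ⟨f * TV i, fun x => ?_, ?_⟩
      · rw [mul_smul, X_smul T hT i x, hf, hj, Module.End.mul_apply]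
      · rw [Module.End.mul_apply, hv, map_smul, hfv, map_mul, hχX, smul_smul, mul_comm]
  -- `ker θ ⊆ χ⁻¹ 𝔪`
  have hker : ∀ s : MvPolynomial ι ℤ, theta p c s = 0 →
      ∃ b : integralClosure ℤ ℂ, b ∈ 𝔪 ∧ (b : ℂ) = χ s := by
    intro s hs
    rw [← chiInt_mem_iff j v hv0 hvspan χ hχ 𝔪 s]
    obtain ⟨m, t, ht, rfl⟩ := exists_of_theta_eq_zero p c hs
    have hX : idealX c ≤ Ideal.comap (chiInt j v hv0 hvspan χ hχ) 𝔪 := by
      rw [idealX, Ideal.span_le]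
      rintro _ ⟨i, rfl⟩
      show chiInt j v hv0 hvspan χ hχ (X i - C (c i)) ∈ 𝔪
      rw [chiInt_mem_iff]
      obtain ⟨a, ha, ha𝔪⟩ := hc i
      refine ⟨_, ha𝔪, ?_⟩
      rw [map_sub, hχX, hχC]
      push_cast
      rw [ha]
    have hpm : chiInt j v hv0 hvspan χ hχ (C ((p : ℤ) * m)) ∈ 𝔪 := by
      rw [chiInt_mem_iff]
      refine ⟨((p : ℕ) : integralClosure ℤ ℂ) * ((m : ℤ) : integralClosure ℤ ℂ),
        𝔪.mul_mem_right _ hp𝔪, ?_⟩
      rw [hχC]
      push_cast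
      rfl
    rw [map_add]
    exact 𝔪.add_mem hpm (hX ht)
  -- the congruence at `q`
  have hq' : ∃ b : integralClosure ℤ ℂ, b ∈ 𝔪 ∧ (b : ℂ) = lamq ^ 2 - χ (C cq) ^ 2 := by
    obtain ⟨a, ha, ha𝔪⟩ := hq
    refine ⟨_, ha𝔪, ?_⟩
    rw [hχC]
    push_cast
    rw [ha]
  exact hsupp_of_eigenvector (theta p c) (C cq : MvPolynomial ι ℤ) tq j v hv0 hvspan χ hχ lamq
    ⟨TVq, fun x => by rw [htq, hjq], hvq⟩ 𝔪 h𝔪 hker hq'

end Fermat.Agent.S41.Mid77
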